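import Fermat.Agent.Ribet.H158.WallQSpec
import Fermat.Agent.Ribet.H801.ALWall

/-!
# S59 moonshot, cell B1 (WALL-q in W-form): NEAT-GLUE  (helper158)

The leaves of the wall at `q` (FROB-AL `H818`, CORE-OUT-q `H912`, CUSP-q `H644`) are proved at the
levels `(q, N')` with `S35.G.HasAux N' q` (`q = 3 → 2 ∣ N'`, `q = 2 → 3 ∣ N'`).  In the Frey form
the remaining levels were vacuous (`OddVacuous`); in the W-form they are not.  This file is the
abstract descent of the three targets from a level `(q, N')` (think `N' = r M'`, `r` the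
auxiliary prime) to the level `(q, M')`, along a pull-back `π : J₀(q M') → J₀(q N')`:

    targets_of_neatPull :
      (π additive, Galois-equivariant, Hecke-equivariant off `S₀`, maps `q`-new `p`-torsion to
       `q`-new `p`-torsion, injective on `p`-torsion, commutes with `w_q`)
      → (π x ∈ 𝓕' → x ∈ 𝓕 on `p`-torsion) → (x ∈ 𝒮 → π x ∈ 𝒮')
      → FROB-AL at `(q, N')` on `𝒮'` (explicit form, `u = - w_q`)
      → `Q4For p q N' A 𝓕'`
      → `Q3For p q M' 𝓕 𝒮`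
      → `Q2For p q M' A 𝒮 ∧ Q3For p q M' 𝓕 𝒮 ∧ Q4For p q M' A 𝓕`.

The choice `𝓕 := 𝓕'.comap π`, `𝒮 := 𝒮'.comap π` makes the two comparison hypotheses trivial
(`targets_of_neatPull_comap`); the choice `𝓕 = finPartQ`, `𝒮 = splitPartQ` at level `M'` needs the
descent of finiteness (degree of `π` prime to `p`).

No Frey package, no condition on `p` or `q` beyond primality of `q`.
-/

set_option autoImplicit false
set_option linter.style.haveILetI false

open ModularCurve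

namespace Fermat.Agent.S59.H158.Neat

open Fermat.Agent.Ribet Fermat.Agent.Ribet.Spec Fermat.Agent.Ribet.H944.Wall
open Fermat.Agent.Ribet.H158.WallQ Fermat.Agent.Ribet.H801

variable {p q M' N' : ℕ} [NeZero M'] [NeZero q] [NeZero (q * M')] [NeZero N'] [NeZero (q * N')]

/-- **The pull-back package** along `X₀(q N') → X₀(q M')` (`N' = r M'`). -/
structure NeatPull (p q M' N' : ℕ) [NeZero M'] [NeZero q] [NeZero (q * M')] [NeZero N']
    [NeZero (q * N')] (hq : q.Prime) (hqM : ¬ q ∣ M') (hqN : ¬ q ∣ N')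
    (S₀ : Finset ℕ) (π : JZero (q * M') →+ JZero (q * N')) : Prop where
  /-- `π` commutes with `G_ℚ`. -/
  galois : ∀ (σ : GQ) (x : JZero (q * M')), π (σ • x) = σ • π x
  /-- `π` commutes with the Hecke operators off `S₀`, on `p`-torsion. -/
  hecke : ∀ ℓ : Nat.Primes, (ℓ : ℕ) ∉ S₀ → ∀ x : JZero (q * M'), p • x = 0 →
    π (heckeOperatorBar (q * M') ℓ x) = heckeOperatorBar (q * N') ℓ (π x)
  /-- `π` maps `q`-new `p`-torsion to `q`-new `p`-torsion (base change for `α_*`, `β_*`). -/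
  new : ∀ x : JZero (q * M'), IsNewTorsQ p q M' x → IsNewTorsQ p q N' (π x)
  /-- `π` is injective on `p`-torsion. -/
  inj : ∀ x : JZero (q * M'), p • x = 0 → π x = 0 → x = 0
  /-- `π` commutes with the Atkin–Lehner involution `w_q`. -/
  atkin : ∀ x : JZero (q * M'), π (wL q M' hq hqM x) = wL q N' hq hqN (π x)

/-- **FROB-AL, explicit form** on a subgroup `𝒮` at level `(q, M')`: every Frobenius at `A` is
`q · (- w_q)` on the new part of `𝒮`. -/
def FrobALOn (p q M' : ℕ) [NeZero M'] [NeZero q] [NeZero (q * M')] (hq : q.Prime)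
    (hqM : ¬ q ∣ M') (A : ValuationSubring (AlgebraicClosure ℚ))
    (𝒮 : AddSubgroup (JZero (q * M'))) : Prop :=
  ∀ φ : GQ, A.IsFrobeniusAt φ q → ∀ x ∈ 𝒮, IsNewTorsQ p q M' x →
    φ • x = q • (-(wL q M' hq hqM x))

/-- The explicit form implies `Q2For` (with `u = - w_q`). -/
theorem q2For_of_frobALOn (hq : q.Prime) (hqM : ¬ q ∣ M')
    {A : ValuationSubring (AlgebraicClosure ℚ)} {𝒮 : AddSubgroup (JZero (q * M'))}
    (h : FrobALOn p q M' hq hqM A 𝒮) : Q2For p q M' A 𝒮 := by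
  refine ⟨-((wL q M' hq hqM : JZero (q * M') ≃+ JZero (q * M')) :
      JZero (q * M') →+ JZero (q * M')), ?_, ?_, ?_⟩
  · intro σ x
    show -(wL q M' hq hqM (σ • x)) = σ • (-(wL q M' hq hqM x))
    rw [wL_smul, smul_neg]
  · intro x _ _
    show -(wL q M' hq hqM (-(wL q M' hq hqM x))) = x
    rw [map_neg, neg_neg, wL_wL]
  · intro φ hφ x hx hnew
    exact h φ hφ x hx hnew

/-- `p • (-y) = -(p • y)`. -/
theorem neg_nsmul_aux158 {X : Type*} [AddCommGroup X] (n : ℕ) (y : X) : -(n • y) = n • (-y) :=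
  (smul_neg n y).symm

section Descent

variable {hq : q.Prime} {hqM : ¬ q ∣ M'} {hqN : ¬ q ∣ N'} {S₀ : Finset ℕ}
  {π : JZero (q * M') →+ JZero (q * N')}

/-- `π` preserves eigenclasses (off `S ∪ S₀`). -/
theorem NeatPull.eigenAt (hπ : NeatPull p q M' N' hq hqM hqN S₀ π) {S : Finset ℕ} {a : ℕ → ℤ}
    {x : JZero (q * M')} (hpx : p • x = 0) (hx : EigenAt (q * M') S a x) :
    EigenAt (q * N') (S ∪ S₀) a (π x) := by
  intro ℓ hℓ
  rw [Finset.mem_union, not_or] at hℓ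
  rw [← hπ.hecke ℓ hℓ.2 x hpx, hx ℓ hℓ.1, map_zsmul]

/-- **FROB-AL descends** along an injective pull-back commuting with `w_q`. -/
theorem frobALOn_of_neatPull (hπ : NeatPull p q M' N' hq hqM hqN S₀ π)
    {A : ValuationSubring (AlgebraicClosure ℚ)}
    {𝒮 : AddSubgroup (JZero (q * M'))} {𝒮' : AddSubgroup (JZero (q * N'))}
    (hS : ∀ x ∈ 𝒮, π x ∈ 𝒮') (h : FrobALOn p q N' hq hqN A 𝒮') :
    FrobALOn p q M' hq hqM A 𝒮 := by
  intro φ hφ x hx hnew
  have h1 : φ • π x = q • (-(wL q N' hq hqN (π x))) := h φ hφ (π x) (hS x hx) (hπ.new x hnew)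
  have hp : p • (φ • x - q • (-(wL q M' hq hqM x))) = 0 := by
    have hpx : p • x = 0 := hnew.1
    have e1 : p • (φ • x) = 0 := by
      rw [smul_comm p φ x, hpx, smul_zero]
    have e2 : p • (q • (-(wL q M' hq hqM x))) = 0 := by
      rw [smul_comm p q, ← neg_nsmul_aux158, ← map_nsmul, hpx, map_zero, neg_zero, smul_zero]
    rw [nsmul_sub, e1, e2, sub_zero]
  have hz : π (φ • x - q • (-(wL q M' hq hqM x))) = 0 := by
    rw [map_sub, hπ.galois, map_nsmul, map_neg, hπ.atkin, h1, sub_self]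
  exact sub_eq_zero.1 (hπ.inj _ hp hz)

/-- **TAME descends**: `Q4For` at `(q, N')` gives `Q4For` at `(q, M')` for every `𝓕` which
contains the `p`-torsion classes whose pull-back lies in `𝓕'`. -/
theorem q4For_of_neatPull (hπ : NeatPull p q M' N' hq hqM hqN S₀ π)
    {A : ValuationSubring (AlgebraicClosure ℚ)}
    {𝓕 : AddSubgroup (JZero (q * M'))} {𝓕' : AddSubgroup (JZero (q * N'))}
    (hF : ∀ x : JZero (q * M'), p • x = 0 → π x ∈ 𝓕' → x ∈ 𝓕) (h : Q4For p q N' A 𝓕') :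
    Q4For p q M' A 𝓕 := by
  intro S a hNE x hnew heig hfix
  refine hF x hnew.1 (h (S ∪ S₀) a hNE (π x) (hπ.new x hnew) (hπ.eigenAt hnew.1 heig) ?_)
  intro σ hσ
  rw [← hπ.galois, hfix σ hσ]

/-- **NEAT-GLUE**: the three targets at `(q, M')` from FROB-AL and TAME at `(q, N')`, the
pull-back package and RED at `(q, M')`. -/
theorem targets_of_neatPull (hπ : NeatPull p q M' N' hq hqM hqN S₀ π)
    {A : ValuationSubring (AlgebraicClosure ℚ)}
    {𝓕 𝒮 : AddSubgroup (JZero (q * M'))} {𝓕' 𝒮' : AddSubgroup (JZero (q * N'))}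
    (hF : ∀ x : JZero (q * M'), p • x = 0 → π x ∈ 𝓕' → x ∈ 𝓕)
    (hS : ∀ x ∈ 𝒮, π x ∈ 𝒮')
    (h2 : FrobALOn p q N' hq hqN A 𝒮') (h4 : Q4For p q N' A 𝓕')
    (h3 : Q3For p q M' 𝓕 𝒮) :
    Q2For p q M' A 𝒮 ∧ Q3For p q M' 𝓕 𝒮 ∧ Q4For p q M' A 𝓕 :=
  ⟨q2For_of_frobALOn hq hqM (frobALOn_of_neatPull hπ hS h2), h3, q4For_of_neatPull hπ hF h4⟩

/-- **NEAT-GLUE, pre-image form**: with `𝓕 := π⁻¹ 𝓕'`, `𝒮 := π⁻¹ 𝒮'` the comparison hypotheses
are trivial; what remains is RED for the pre-images. -/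
theorem targets_of_neatPull_comap (hπ : NeatPull p q M' N' hq hqM hqN S₀ π)
    {A : ValuationSubring (AlgebraicClosure ℚ)} {𝓕' 𝒮' : AddSubgroup (JZero (q * N'))}
    (h2 : FrobALOn p q N' hq hqN A 𝒮') (h4 : Q4For p q N' A 𝓕')
    (h3 : Q3For p q M' (𝓕'.comap π) (𝒮'.comap π)) :
    ∃ 𝓕 𝒮 : AddSubgroup (JZero (q * M')),
      Q2For p q M' A 𝒮 ∧ Q3For p q M' 𝓕 𝒮 ∧ Q4For p q M' A 𝓕 :=
  ⟨𝓕'.comap π, 𝒮'.comap π,
    targets_of_neatPull hπ (fun _ _ h => h) (fun _ h => h) h2 h4 h3⟩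

end Descent

end Fermat.Agent.S59.H158.Neat
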